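import Fermat.Agent.LT.T3.M.GenSpec
import Fermat.Agent.LT.T3.H694.AvgCore
import Fermat.Agent.LT.T3.H203.Cartan
import Fermat.Agent.LT.T3.H572.UnitaryHaar

/-!
# Row LT, tower T3, station T3.18M, leaf G.1 `M.MeanActsC` (helper96, registry row 1922)

OFF-MAIN.  `meanActsC96 : M.MeanActsC` VERBATIM (`LT/T3/M/GenSpec.lean`, helper14, sha256
3b64610c): a continuous bi-`U(2)`-invariant function `F` of compact support on `GL₂(ℂ)` acts on
the eigenfunctions of the sphere means with eigenvalue function `m` by a scalar.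

Proof = the `K`-average of helper694 (`H694/AvgCore.lean`, closed `H315.AvgC`) with `m d / 4π` in
place of `d / sinh d`:  `∫ Ψ(y h) F(h) dμ = ∫_{supp F} (∫_{U(2)} Ψ(y k h) dk) F(h) dμ` and
`∫_{U(2)} Ψ(y k h) dk = φ_m(h) Ψ(y)`, `φ_m(h) = 1` if `chD h ≤ 1`, `= m(arcosh (chD h)) / 4π`
otherwise.  `C = ∫_{supp F} φ_m F dμ` (Bochner integral; NO measurability of `m` is needed: the
constant `Ψ(y)` is pulled out of the integral unconditionally).
Inputs: `cartanC203` (helper203), `unitaryHaarC572` (helper572), the measure-theoretic lemmas of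
helper694 (byte-identical copies).
-/

set_option autoImplicit false
set_option linter.style.haveILetI false

open MeasureTheory
open Fermat.Agent.LT.H556.A0 Fermat.Agent.LT.T3.AS Fermat.Agent.LT.T3.H614
open Fermat.Agent.LT.T3.H315 Fermat.Agent.LT.T3.H694 Fermat.Agent.LT.T3

noncomputable section

namespace Fermat.Agent.LT.T3.M.H96

open Fermat.Agent.LT.T3.M

/-- The spherical function attached to the eigenvalue function `m`, as a function of
`X = cosh d`. -/
def phiM96 (m : ℝ → ℂ) (X : ℝ) : ℂ :=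
  if X ≤ 1 then 1 else m (Real.arcosh X) / ((4 * Real.pi : ℝ) : ℂ)

theorem phiM_cosh_zero96 (m : ℝ → ℂ) : phiM96 m (Real.cosh 0) = 1 := by
  unfold phiM96
  rw [if_pos (by simp)]

theorem phiM_cosh_pos96 (m : ℝ → ℂ) {d : ℝ} (hd : 0 < d) :
    phiM96 m (Real.cosh d) = m d / ((4 * Real.pi : ℝ) : ℂ) := by
  unfold phiM96
  have h1 : 1 < Real.cosh d := Real.one_lt_cosh.mpr hd.ne'
  rw [if_neg (not_le.mpr h1), Real.arcosh_cosh hd.le]

section Core

local instance borelGL96 : MeasurableSpace (GL (Fin 2) ℂ) := borel (GL (Fin 2) ℂ)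

local instance borelSpaceGL96 : BorelSpace (GL (Fin 2) ℂ) := ⟨rfl⟩

local instance sctGL96 : SecondCountableTopology (GL (Fin 2) ℂ) := secondCountable_GL694

/-- **The torus step**: the `m`-average of `Ψ(y k torus(d))` is `(m d / 4π) Ψ(y)`. -/
theorem avg_torus96 {mu : Measure (GL (Fin 2) ℂ)} [IsProbabilityMeasure mu]
    (hKc : IsCompact {k : GL (Fin 2) ℂ | IsUnitary2 k})
    (hmK : ∀ᵐ k ∂mu, IsUnitary2 k)
    (hminv : ∀ k₀ : GL (Fin 2) ℂ, IsUnitary2 k₀ →
      Measure.map (fun k => k₀ * k) mu = mu ∧ Measure.map (fun k => k * k₀) mu = mu)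
    {m : ℝ → ℂ} {Ψ : GL (Fin 2) ℂ → ℂ} (hΨ : IsLocMean m Ψ) (y t : GL (Fin 2) ℂ) (d : ℝ)
    (hd : 0 < d) (ht : (t : Matrix (Fin 2) (Fin 2) ℂ) = torus d) :
    ∫ k, Ψ (y * k * t) ∂mu = m d / ((4 * Real.pi : ℝ) : ℂ) * Ψ y := by
  have hKm : MeasurableSet {k : GL (Fin 2) ℂ | IsUnitary2 k} := hKc.isClosed.measurableSet
  let Gf : GL (Fin 2) ℂ → ℝ × ℝ → ℂ := fun k p =>
    Ψ (y * k * (eulerGL694 p.1 p.2 * t)) * ((Real.sin p.2 : ℝ) : ℂ)
  have hmap : Continuous fun z : GL (Fin 2) ℂ × (ℝ × ℝ) =>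
      y * z.1 * (eulerGL694 z.2.1 z.2.2 * t) := by
    have he : Continuous fun z : GL (Fin 2) ℂ × (ℝ × ℝ) => eulerGL694 z.2.1 z.2.2 :=
      continuous_eulerGL694.comp continuous_snd
    exact (continuous_const.mul continuous_fst).mul (he.mul continuous_const)
  have hGcont : Continuous (Function.uncurry Gf) := by
    have h1 : Continuous fun z : GL (Fin 2) ℂ × (ℝ × ℝ) =>
        Ψ (y * z.1 * (eulerGL694 z.2.1 z.2.2 * t)) := hΨ.cont.comp hmap
    have h2 : Continuous fun z : GL (Fin 2) ℂ × (ℝ × ℝ) => ((Real.sin z.2.2 : ℝ) : ℂ) :=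
      Complex.continuous_ofReal.comp
        (Real.continuous_sin.comp (continuous_snd.comp continuous_snd))
    exact h1.mul h2
  have hGk : ∀ k, Continuous (Gf k) := fun k => hGcont.uncurry_left k
  obtain ⟨C, hC⟩ := (hKc.prod (isCompact_Icc.prod isCompact_Icc :
    IsCompact (Set.Icc (0 : ℝ) (2 * Real.pi) ×ˢ Set.Icc (0 : ℝ) Real.pi))).exists_bound_of_continuousOn
      hGcont.continuousOn
  have hint : Integrable (Function.uncurry Gf) (mu.prod rectMeas694) :=
    integrable_prod_of_bound694 hGcont.aestronglyMeasurable C hKm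
      (measurableSet_Icc.prod measurableSet_Icc) hmK ae_mem_rect694
      (fun a ha b hb => hC (a, b) ⟨ha, hb⟩)
  -- the mean value property at the points `y k`
  have hmvp : ∀ k, IsUnitary2 k → ∫ p, Gf k p ∂rectMeas694 = m d * Ψ y := by
    intro k hk
    have hY := hΨ.mean d hd (fun α β => eulerGL694 α β * t)
      (by intro α β; rw [Units.val_mul, eulerGL_coe694, ht]) (y * k)
    rw [hΨ.unitary k y hk] at hY
    rw [rect_integral_eq694 (Gf k) (hGk k)]
    exact hY
  have h1 : ∫ k, ∫ p, Gf k p ∂rectMeas694 ∂mu = m d * Ψ y := by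
    rw [integral_congr_ae (hmK.mono fun k hk => hmvp k hk)]
    simp
  have h2 : ∫ k, ∫ p, Gf k p ∂rectMeas694 ∂mu = ∫ p, ∫ k, Gf k p ∂mu ∂rectMeas694 :=
    integral_integral_swap hint
  have hcont0 : Continuous fun k : GL (Fin 2) ℂ => Ψ (y * k * t) :=
    hΨ.cont.comp ((continuous_const.mul continuous_id).mul continuous_const)
  have h3 : ∀ p : ℝ × ℝ, ∫ k, Gf k p ∂mu
      = (∫ k, Ψ (y * k * t) ∂mu) * ((Real.sin p.2 : ℝ) : ℂ) := by
    intro p
    have hr := integral_mul_right_unitary694 hminv (fun k => Ψ (y * k * t)) hcont0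
      (eulerGL694 p.1 p.2) (eulerGL_unitary694 p.1 p.2)
    simp only [Gf]
    rw [integral_mul_const, ← hr]
    congr 1
    refine integral_congr_ae (Filter.Eventually.of_forall fun k => ?_)
    simp only [mul_assoc]
  rw [h2] at h1
  simp_rw [h3] at h1
  rw [integral_const_mul, integral_sin_rectMeas694] at h1
  have hpi : ((4 * Real.pi : ℝ) : ℂ) ≠ 0 := by
    exact_mod_cast (by positivity : (4 * Real.pi : ℝ) ≠ 0)
  rw [div_mul_eq_mul_div, eq_div_iff hpi, h1]

/-- **The `K`-average**: `∫ Ψ(y k h) dk = φ_m(chD h) Ψ(y)`. -/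
theorem avg_point96 {mu : Measure (GL (Fin 2) ℂ)} [IsProbabilityMeasure mu]
    (hKc : IsCompact {k : GL (Fin 2) ℂ | IsUnitary2 k})
    (hmK : ∀ᵐ k ∂mu, IsUnitary2 k)
    (hminv : ∀ k₀ : GL (Fin 2) ℂ, IsUnitary2 k₀ →
      Measure.map (fun k => k₀ * k) mu = mu ∧ Measure.map (fun k => k * k₀) mu = mu)
    {m : ℝ → ℂ} {Ψ : GL (Fin 2) ℂ → ℂ} (hΨ : IsLocMean m Ψ) (y h : GL (Fin 2) ℂ) :
    ∫ k, Ψ (y * k * h) ∂mu
      = phiM96 m (chD614 (h : Matrix (Fin 2) (Fin 2) ℂ)) * Ψ y := by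
  obtain ⟨k₁, k₂, t, z, d, r, hk₁, hk₂, hd, hr, hch, ht, hz, hh⟩ := H203.cartanC203 h
  -- remove `k₂` and `z`
  have hstep1 : ∀ k : GL (Fin 2) ℂ, Ψ (y * k * h) = Ψ (y * (k * k₁) * t) := by
    intro k
    have e1 : y * k * h = (y * (k * k₁) * t * z) * k₂ := by
      rw [hh]; simp only [mul_assoc]
    rw [e1, hΨ.unitary k₂ _ hk₂, hΨ.scalar z r hr hz]
  have hcont0 : Continuous fun k : GL (Fin 2) ℂ => Ψ (y * k * t) :=
    hΨ.cont.comp ((continuous_const.mul continuous_id).mul continuous_const)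
  have hstep2 : ∫ k, Ψ (y * k * h) ∂mu = ∫ k, Ψ (y * k * t) ∂mu := by
    rw [← integral_mul_right_unitary694 hminv (fun k => Ψ (y * k * t)) hcont0 k₁ hk₁]
    exact integral_congr_ae (Filter.Eventually.of_forall hstep1)
  rw [hstep2, ← hch]
  rcases hd.eq_or_lt with h0 | hpos
  · -- `d = 0`
    subst h0
    have ht1 : t = 1 := by
      apply Units.ext
      rw [ht, torus_zero694]; rfl
    subst ht1
    rw [phiM_cosh_zero96]
    have : ∀ᵐ k ∂mu, Ψ (y * k * 1) = Ψ y := by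
      filter_upwards [hmK] with k hk
      rw [mul_one, hΨ.unitary k y hk]
    rw [integral_congr_ae this]
    simp
  · rw [phiM_cosh_pos96 m hpos]
    exact avg_torus96 hKc hmK hminv hΨ y t d hpos ht

/-- **The core**: the scalar is `∫_{supp F} φ_m F dμ`. -/
theorem actsByMean96 (μ : Measure (GL (Fin 2) ℂ)) [μ.IsHaarMeasure]
    (F : GL (Fin 2) ℂ → ℂ) (hF : IsCplxTest F) (m : ℝ → ℂ) :
    ActsByMean μ F m
      (∫ h in tsupport F, phiM96 m (chD614 (h : Matrix (Fin 2) (Fin 2) ℂ)) * F h ∂μ) := by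
  obtain ⟨hKc, mu, hmu, hmK, hminv⟩ := H572.unitaryHaarC572
  haveI := hmu
  intro Ψ hΨ y
  have hf : Continuous F := hF.cont
  have hfK : ∀ k h : GL (Fin 2) ℂ, IsUnitary2 k → F (k * h) = F h := by
    intro k h hk
    have := hF.bi_inv k 1 h hk isUnitary2_one315
    simpa using this
  have hKm : MeasurableSet {k : GL (Fin 2) ℂ | IsUnitary2 k} := hKc.isClosed.measurableSet
  -- the support of `F`
  have hS : IsCompact (tsupport F) := hF.supp
  have hSm : MeasurableSet (tsupport F) := (isClosed_tsupport F).measurableSet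
  haveI : IsFiniteMeasure (μ.restrict (tsupport F)) :=
    ⟨by rw [Measure.restrict_apply_univ]; exact hS.measure_lt_top⟩
  have hsupp : ∀ g : GL (Fin 2) ℂ → ℂ,
      ∫ h in tsupport F, g h * F h ∂μ = ∫ h, g h * F h ∂μ := by
    intro g
    refine setIntegral_eq_integral_of_forall_compl_eq_zero fun h hh => ?_
    rw [image_eq_zero_of_notMem_tsupport hh, mul_zero]
  -- step 1: translation by a unitary `k`
  have htrans : ∀ k : GL (Fin 2) ℂ, IsUnitary2 k →
      ∫ h in tsupport F, Ψ (y * k * h) * F h ∂μ = ∫ h, Ψ (y * h) * F h ∂μ := by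
    intro k hk
    rw [hsupp (fun h => Ψ (y * k * h))]
    have h1 := integral_mul_left_eq_self (μ := μ) (fun h => Ψ (y * h) * F h) k
    rw [← h1]
    refine integral_congr_ae (Filter.Eventually.of_forall fun h => ?_)
    simp only [hfK k h hk, mul_assoc]
  -- step 2: Fubini
  let Ff : GL (Fin 2) ℂ → GL (Fin 2) ℂ → ℂ := fun k h => Ψ (y * k * h) * F h
  have hFcont : Continuous (Function.uncurry Ff) := by
    have h1 : Continuous fun z : GL (Fin 2) ℂ × GL (Fin 2) ℂ => Ψ (y * z.1 * z.2) :=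
      hΨ.cont.comp ((continuous_const.mul continuous_fst).mul continuous_snd)
    exact h1.mul (hf.comp continuous_snd)
  obtain ⟨C, hC⟩ := (hKc.prod hS).exists_bound_of_continuousOn hFcont.continuousOn
  have hint : Integrable (Function.uncurry Ff) (mu.prod (μ.restrict (tsupport F))) :=
    integrable_prod_of_bound694 hFcont.aestronglyMeasurable C hKm hSm hmK
      (ae_restrict_mem hSm) (fun a ha b hb => hC (a, b) ⟨ha, hb⟩)
  have hswap : ∫ k, ∫ h, Ff k h ∂(μ.restrict (tsupport F)) ∂mu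
      = ∫ h, ∫ k, Ff k h ∂mu ∂(μ.restrict (tsupport F)) := integral_integral_swap hint
  have hleft : ∫ k, ∫ h, Ff k h ∂(μ.restrict (tsupport F)) ∂mu = ∫ h, Ψ (y * h) * F h ∂μ := by
    rw [integral_congr_ae (hmK.mono fun k hk => htrans k hk)]
    simp
  have hright : ∀ h : GL (Fin 2) ℂ, ∫ k, Ff k h ∂mu
      = Ψ y * (phiM96 m (chD614 (h : Matrix (Fin 2) (Fin 2) ℂ)) * F h) := by
    intro h
    simp only [Ff]
    rw [integral_mul_const, avg_point96 hKc hmK hminv hΨ y h]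
    ring
  rw [← hleft, hswap]
  simp_rw [hright]
  rw [integral_const_mul, mul_comm]

end Core

/-- **G.1 `MeanActsC`** (`LT/T3/M/GenSpec.lean`, VERBATIM). -/
theorem meanActsC96 : MeanActsC := by
  intro μc hμc F hF m
  haveI := hμc
  exact ⟨_, actsByMean96 μc F hF m⟩

/-- The statement, spelled out (check against the bytes of `GenSpec.lean`). -/
example :
    letI : MeasurableSpace (GL (Fin 2) ℂ) := borel (GL (Fin 2) ℂ)
    ∀ μc : Measure (GL (Fin 2) ℂ), μc.IsHaarMeasure →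
    ∀ F : GL (Fin 2) ℂ → ℂ, IsCplxTest F → ∀ m : ℝ → ℂ, ∃ C : ℂ,
      ∀ Ψ : GL (Fin 2) ℂ → ℂ, IsLocMean m Ψ → ∀ y : GL (Fin 2) ℂ,
        ∫ h, Ψ (y * h) * F h ∂μc = C * Ψ y :=
  meanActsC96

end Fermat.Agent.LT.T3.M.H96

end
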